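/-
S26 track, brick RIG (helper6): the rigidity lemma.

`X` proper over a field `k` with `H⁰(X, 𝒪_X) = k`, `Y` a `k`-scheme with `X ×ₖ Y` integral,
`f : X ×ₖ Y ⟶ Z` a morphism contracting one fibre `X × {y₀}` to a point.  Then `f` factors
through the second projection: `f = p₂ ≫ g`, `g = f(x₀, -)`.
-/
import Mathlib
import Fermat.Agent.JAC.Bridge.GlobalSections57

set_option autoImplicit false

universe u

open CategoryTheory CategoryTheory.Limits AlgebraicGeometry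

namespace Fermat.Agent.JAC.Rig.Rigidity6

open Fermat.Agent.JAC.Bridge.GlobalSections57

section Affine

/-- A morphism into an affine scheme factors through any retraction `q` inducing an isomorphism
on global sections: `h = q ≫ σ ≫ h`. -/
theorem eq_comp_section_comp {W V A : Scheme.{u}} [IsAffine A] (q : W ⟶ V) (σ : V ⟶ W)
    (hσ : σ ≫ q = 𝟙 V) [IsIso q.appTop] (h : W ⟶ A) : h = q ≫ σ ≫ h := by
  apply ext_of_isAffine
  have h1 : q.appTop ≫ σ.appTop = 𝟙 _ := by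
    rw [← Scheme.Hom.comp_appTop, hσ, Scheme.Hom.id_appTop]
  have h2 : σ.appTop ≫ q.appTop = 𝟙 _ := by
    rw [← cancel_epi q.appTop, ← Category.assoc, h1, Category.id_comp, Category.comp_id]
  rw [Scheme.Hom.comp_appTop, Scheme.Hom.comp_appTop, Category.assoc, h2, Category.comp_id]

end Affine

section Local

variable {P Y Z : Scheme.{u}} (q : P ⟶ Y) (σ : Y ⟶ P) (hσ : σ ≫ q = 𝟙 Y) (f : P ⟶ Z)

include hσ in
/-- Local form of rigidity: if `q⁻¹ V` is mapped by `f` into an affine open `U` and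
`Γ(Y, V) ⟶ Γ(P, q⁻¹ V)` is an isomorphism, then `f` factors through `q` over `V`. -/
theorem ι_comp_eq_of_le_affine (V : Y.Opens) (U : Z.Opens) (hU : IsAffineOpen U)
    (hVU : q ⁻¹ᵁ V ≤ f ⁻¹ᵁ U) (hiso : IsIso (q.app V)) :
    (q ⁻¹ᵁ V).ι ≫ f = (q ⁻¹ᵁ V).ι ≫ q ≫ σ ≫ f := by
  have : IsAffine U.toScheme := hU
  have hσV : V ≤ σ ⁻¹ᵁ (q ⁻¹ᵁ V) := by
    rw [← Scheme.Hom.comp_preimage, hσ]
    exact le_of_eq rfl
  let q' : (q ⁻¹ᵁ V).toScheme ⟶ V.toScheme := q.resLE V (q ⁻¹ᵁ V) le_rfl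
  let σ' : V.toScheme ⟶ (q ⁻¹ᵁ V).toScheme := σ.resLE (q ⁻¹ᵁ V) V hσV
  let h : (q ⁻¹ᵁ V).toScheme ⟶ U.toScheme := f.resLE U (q ⁻¹ᵁ V) hVU
  have hσ' : σ' ≫ q' = 𝟙 _ := by
    rw [← cancel_mono V.ι]
    simp only [q', σ', Category.assoc, Scheme.Hom.resLE_comp_ι, Scheme.Hom.resLE_comp_ι_assoc,
      Category.id_comp]
    rw [hσ, Category.comp_id]
  have hq' : IsIso q'.appTop := by
    have : q'.appTop = V.topIso.hom ≫ q.app V ≫ (q ⁻¹ᵁ V).topIso.inv := by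
      change (q.resLE V (q ⁻¹ᵁ V) le_rfl).app ⊤ = _
      rw [Scheme.Hom.resLE_app_top, Scheme.Hom.app_eq_appLE]
    rw [this]
    infer_instance
  have key := eq_comp_section_comp q' σ' hσ' h
  have := congrArg (· ≫ U.ι) key
  simp only [h, q', σ', Category.assoc, Scheme.Hom.resLE_comp_ι, Scheme.Hom.resLE_comp_ι_assoc]
    at this
  exact this

end Local

section Global

variable {k : Type u} [Field k] {X Y Z : Scheme.{u}}
  (x : X ⟶ Spec (CommRingCat.of k)) (y : Y ⟶ Spec (CommRingCat.of k))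

/-- **Rigidity lemma**, general form.  `X` universally closed, quasi-compact and quasi-separated
over a field `k` with `H⁰(X, 𝒪) = k`; `X ×ₖ Y` integral; `σ` a section of the second projection;
`f : X ×ₖ Y ⟶ Z` with `Z` separated over some base `B` compatibly; if `f` contracts the fibre of
`p₂` over one point `y₀` to a point, then `f = p₂ ≫ σ ≫ f`. -/
theorem rigidity_of_section [UniversallyClosed x] [CompactSpace X] [QuasiSeparatedSpace X]
    (hx : IsIso x.appTop) [IsIntegral (pullback x y)]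
    (σ : Y ⟶ pullback x y) (hσ : σ ≫ pullback.snd x y = 𝟙 Y)
    (f : pullback x y ⟶ Z) {B : Scheme.{u}} (s : Z ⟶ B) [IsSeparated s]
    (hs : f ≫ s = pullback.snd x y ≫ σ ≫ f ≫ s)
    (y₀ : Y) (z₀ : Z) (hcontr : ∀ p : ↥(pullback x y), (pullback.snd x y) p = y₀ → f p = z₀) :
    f = pullback.snd x y ≫ σ ≫ f := by
  let q := pullback.snd x y
  -- an affine open neighbourhood of `z₀`
  obtain ⟨U, hU, hz₀⟩ : ∃ U : Z.Opens, IsAffineOpen U ∧ z₀ ∈ U := by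
    obtain ⟨_, ⟨U, hU, rfl⟩, hzU, -⟩ :=
      (Z.isBasis_affineOpens).exists_subset_of_mem_open (Set.mem_univ z₀) isOpen_univ
    exact ⟨U, hU, hzU⟩
  -- the closed set `G = q (P ∖ f⁻¹ U)` and its open complement `V`
  have hclosed : IsClosed (q '' ((f ⁻¹ᵁ U : (pullback x y).Opens) : Set ↥(pullback x y))ᶜ) :=
    q.isClosedMap _ (f ⁻¹ᵁ U).isOpen.isClosed_compl
  let V : Y.Opens := ⟨(q '' ((f ⁻¹ᵁ U : (pullback x y).Opens) : Set ↥(pullback x y))ᶜ)ᶜ,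
    hclosed.isOpen_compl⟩
  have hy₀ : y₀ ∈ V := by
    rintro ⟨p, hp, hpy⟩
    apply hp
    change f p ∈ U
    rw [hcontr p hpy]
    exact hz₀
  have hVU : q ⁻¹ᵁ V ≤ f ⁻¹ᵁ U := by
    intro p hp
    by_contra hpU
    exact hp ⟨p, hpU, rfl⟩
  have hiso : IsIso (q.app V) := isIso_snd_app x y hx V
  have hloc := ι_comp_eq_of_le_affine q σ hσ f V U hU hVU hiso
  -- `q⁻¹ V` is a nonempty open of the irreducible space `X ×ₖ Y`, hence dense
  have hne : (q ⁻¹ᵁ V : Set ↥(pullback x y)).Nonempty := by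
    refine ⟨σ y₀, ?_⟩
    change q (σ y₀) ∈ V
    rw [← Scheme.Hom.comp_apply, hσ]
    exact hy₀
  have hdom : IsDominant (q ⁻¹ᵁ V).ι := by
    refine ⟨?_⟩
    rw [DenseRange, Scheme.Opens.range_ι]
    exact (q ⁻¹ᵁ V).isOpen.dense hne
  exact ext_of_isDominant_of_isSeparated s hs (q ⁻¹ᵁ V).ι hloc

/-- The section `(x₀, id) : Y ⟶ X ×ₖ Y` attached to a `k`-point `x₀` of `X`. -/
noncomputable def sectionOfPoint (x₀ : Spec (CommRingCat.of k) ⟶ X) (hx₀ : x₀ ≫ x = 𝟙 _) :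
    Y ⟶ pullback x y :=
  pullback.lift (y ≫ x₀) (𝟙 Y) (by rw [Category.assoc, hx₀, Category.comp_id, Category.id_comp])

@[reassoc (attr := simp)]
theorem sectionOfPoint_snd (x₀ : Spec (CommRingCat.of k) ⟶ X) (hx₀ : x₀ ≫ x = 𝟙 _) :
    sectionOfPoint x y x₀ hx₀ ≫ pullback.snd x y = 𝟙 Y :=
  pullback.lift_snd _ _ _

@[reassoc (attr := simp)]
theorem sectionOfPoint_fst (x₀ : Spec (CommRingCat.of k) ⟶ X) (hx₀ : x₀ ≫ x = 𝟙 _) :
    sectionOfPoint x y x₀ hx₀ ≫ pullback.fst x y = y ≫ x₀ :=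
  pullback.lift_fst _ _ _

/-- **Rigidity lemma** over a field: `X` proper over `k` with `H⁰(X, 𝒪) = k` and a `k`-point
`x₀`, `X ×ₖ Y` integral, `Z` separated over `k`, `f : X ×ₖ Y ⟶ Z` a `k`-morphism contracting
`X × {y₀}` to a point.  Then `f(x, y) = f(x₀, y)`. -/
theorem rigidity [IsProper x] (hx : IsIso x.appTop) [IsIntegral (pullback x y)]
    (x₀ : Spec (CommRingCat.of k) ⟶ X) (hx₀ : x₀ ≫ x = 𝟙 _)
    (z : Z ⟶ Spec (CommRingCat.of k)) [IsSeparated z]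
    (f : pullback x y ⟶ Z) (hf : f ≫ z = pullback.snd x y ≫ y)
    (y₀ : Y) (z₀ : Z) (hcontr : ∀ p : ↥(pullback x y), (pullback.snd x y) p = y₀ → f p = z₀) :
    f = pullback.snd x y ≫ sectionOfPoint x y x₀ hx₀ ≫ f := by
  have : CompactSpace X := QuasiCompact.compactSpace_of_compactSpace x
  have : QuasiSeparatedSpace X := quasiSeparatedSpace_of_quasiSeparated x
  refine rigidity_of_section x y hx _ (sectionOfPoint_snd x y x₀ hx₀) f z ?_ y₀ z₀ hcontr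
  rw [hf, sectionOfPoint_snd_assoc]

/-- The inclusion `X ⟶ X ×ₖ Y`, `a ↦ (a, y₀)` attached to a `k`-point `y₀` of `Y`. -/
noncomputable def inclOfPoint (y₀ : Spec (CommRingCat.of k) ⟶ Y) (hy₀ : y₀ ≫ y = 𝟙 _) :
    X ⟶ pullback x y :=
  pullback.lift (𝟙 X) (x ≫ y₀) (by rw [Category.assoc, hy₀, Category.comp_id, Category.id_comp])

@[reassoc (attr := simp)]
theorem inclOfPoint_fst (y₀ : Spec (CommRingCat.of k) ⟶ Y) (hy₀ : y₀ ≫ y = 𝟙 _) :
    inclOfPoint x y y₀ hy₀ ≫ pullback.fst x y = 𝟙 X :=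
  pullback.lift_fst _ _ _

@[reassoc (attr := simp)]
theorem inclOfPoint_snd (y₀ : Spec (CommRingCat.of k) ⟶ Y) (hy₀ : y₀ ≫ y = 𝟙 _) :
    inclOfPoint x y y₀ hy₀ ≫ pullback.snd x y = x ≫ y₀ :=
  pullback.lift_snd _ _ _

/-- The fibre of the second projection over a `k`-point `y₀` is `X`. -/
theorem isPullback_inclOfPoint (y₀ : Spec (CommRingCat.of k) ⟶ Y) (hy₀ : y₀ ≫ y = 𝟙 _) :
    IsPullback (inclOfPoint x y y₀ hy₀) x (pullback.snd x y) y₀ := by
  refine IsPullback.of_right (h₁₂ := pullback.fst x y) (h₂₂ := y) (v₁₃ := x) ?_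
    (inclOfPoint_snd x y y₀ hy₀) (IsPullback.of_hasPullback x y)
  rw [inclOfPoint_fst, hy₀]
  exact IsPullback.of_horiz_isIso ⟨by simp⟩

/-- Every point of `X ×ₖ Y` above the image of a `k`-point `y₀` lies on `X × {y₀}`. -/
theorem exists_inclOfPoint_eq (y₀ : Spec (CommRingCat.of k) ⟶ Y) (hy₀ : y₀ ≫ y = 𝟙 _)
    (p : ↥(pullback x y)) (s : ↥(Spec (CommRingCat.of k))) (hp : (pullback.snd x y) p = y₀ s) :
    ∃ a : X, (inclOfPoint x y y₀ hy₀) a = p := by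
  obtain ⟨o, ho, -⟩ :=
    Scheme.exists_preimage_of_isPullback (isPullback_inclOfPoint x y y₀ hy₀) p s hp
  exact ⟨o, ho⟩

/-- **Rigidity lemma**, `k`-point form: if `f(-, y₀)` is the constant map with value the
`k`-point `z₀`, then `f(a, b) = f(x₀, b)`. -/
theorem rigidity_of_point [IsProper x] (hx : IsIso x.appTop) [IsIntegral (pullback x y)]
    (x₀ : Spec (CommRingCat.of k) ⟶ X) (hx₀ : x₀ ≫ x = 𝟙 _)
    (z : Z ⟶ Spec (CommRingCat.of k)) [IsSeparated z]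
    (f : pullback x y ⟶ Z) (hf : f ≫ z = pullback.snd x y ≫ y)
    (y₀ : Spec (CommRingCat.of k) ⟶ Y) (hy₀ : y₀ ≫ y = 𝟙 _)
    (z₀ : Spec (CommRingCat.of k) ⟶ Z)
    (hcontr : inclOfPoint x y y₀ hy₀ ≫ f = x ≫ z₀) :
    f = pullback.snd x y ≫ sectionOfPoint x y x₀ hx₀ ≫ f := by
  have hs : Nonempty ↥(Spec (CommRingCat.of k)) := inferInstance
  obtain ⟨s⟩ := hs
  refine rigidity x y hx x₀ hx₀ z f hf (y₀ s) (z₀ s) fun p hp => ?_
  obtain ⟨a, rfl⟩ := exists_inclOfPoint_eq x y y₀ hy₀ p s hp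
  rw [← Scheme.Hom.comp_apply, hcontr, Scheme.Hom.comp_apply]
  congr 1
  exact Subsingleton.elim _ _

/-- If moreover `f(x₀, -)` is constant with the same value `z₀`, then `f` is constant. -/
theorem eq_const_of_contracts [IsProper x] (hx : IsIso x.appTop) [IsIntegral (pullback x y)]
    (x₀ : Spec (CommRingCat.of k) ⟶ X) (hx₀ : x₀ ≫ x = 𝟙 _)
    (z : Z ⟶ Spec (CommRingCat.of k)) [IsSeparated z]
    (f : pullback x y ⟶ Z) (hf : f ≫ z = pullback.snd x y ≫ y)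
    (y₀ : Spec (CommRingCat.of k) ⟶ Y) (hy₀ : y₀ ≫ y = 𝟙 _)
    (z₀ : Spec (CommRingCat.of k) ⟶ Z)
    (hcontr : inclOfPoint x y y₀ hy₀ ≫ f = x ≫ z₀)
    (hcontr' : sectionOfPoint x y x₀ hx₀ ≫ f = y ≫ z₀) :
    f = pullback.snd x y ≫ y ≫ z₀ := by
  rw [rigidity_of_point x y hx x₀ hx₀ z f hf y₀ hy₀ z₀ hcontr, hcontr']

end Global

end Fermat.Agent.JAC.Rig.Rigidity6
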